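import Mathlib

/-!
# S55 / layer K / GO3-CAPDIV (helper371), part 4: effective divisors are torsion in the class group

`R` a Dedekind domain with finite class group, `c` a finitely supported function on the primes
of `R` with values in `ℕ`.  Then there are `h > 0` and `κ ≠ 0` in `R` with
`v_w(κ) = h · c(w)` for ALL primes `w` (the ideal `∏ w ^ c(w)` has finite order in the class
group).  Mathlib only.
-/

set_option autoImplicit false

noncomputable section

namespace Fermat.Agent.S55.K.GO3H535.H371

open IsDedekindDomain FractionalIdeal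
open scoped nonZeroDivisors

section

variable {R : Type*} [CommRing R] [IsDedekindDomain R]

/-- The valuation of a generator of an ideal, in terms of `FractionalIdeal.count`. -/
theorem intValuation_eq_exp_neg_count (K : Type*) [Field K] [Algebra R K] [IsFractionRing R K]
    (w : HeightOneSpectrum R) {κ : R} (hκ : κ ≠ 0) :
    w.intValuation κ =
      WithZero.exp (-(count K w ((Ideal.span {κ} : Ideal R) : FractionalIdeal R⁰ K))) := by
  have hsp : (Ideal.span {κ} : Ideal R) ≠ 0 := by
    rw [Ne, Ideal.zero_eq_bot, Ideal.span_singleton_eq_bot]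
    exact hκ
  rw [w.intValuation_if_neg hκ, count_coe K w hsp]

/-- `count` of a finite product of prime powers. -/
theorem count_prod_pow (K : Type*) [Field K] [Algebra R K] [IsFractionRing R K]
    (s : Finset (HeightOneSpectrum R)) (c : HeightOneSpectrum R → ℕ)
    (hc : ∀ w, w ∉ s → c w = 0) (v : HeightOneSpectrum R) :
    count K v (((∏ w ∈ s, w.asIdeal ^ c w : Ideal R)) : FractionalIdeal R⁰ K) = c v := by
  classical
  have hcoe : (((∏ w ∈ s, w.asIdeal ^ c w : Ideal R)) : FractionalIdeal R⁰ K) =
      ∏ w ∈ s, (w.asIdeal : FractionalIdeal R⁰ K) ^ c w := by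
    rw [← coeIdealHom_apply, map_prod]
    refine Finset.prod_congr rfl fun w _ => ?_
    rw [coeIdealHom_apply, coeIdeal_pow]
  rw [hcoe, count_prod K v s _ (fun w _ => pow_ne_zero _ (coeIdeal_ne_zero.mpr w.ne_bot))]
  simp only [count_pow, count_maximal, mul_ite, mul_one, mul_zero, Finset.sum_ite_eq']
  split_ifs with hv
  · rfl
  · rw [hc v hv]
    rfl

/-- **Effective divisors are torsion in the class group.** -/
theorem exists_elt_intValuation_eq [Finite (ClassGroup R)]
    (s : Finset (HeightOneSpectrum R)) (c : HeightOneSpectrum R → ℕ)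
    (hc : ∀ w, w ∉ s → c w = 0) :
    ∃ h : ℕ, 0 < h ∧ ∃ κ : R, κ ≠ 0 ∧
      ∀ w : HeightOneSpectrum R, w.intValuation κ = WithZero.exp (-((h * c w : ℕ) : ℤ)) := by
  classical
  haveI : Fintype (ClassGroup R) := Fintype.ofFinite _
  set I : Ideal R := ∏ w ∈ s, w.asIdeal ^ c w with hI
  have hI0 : I ≠ 0 := by
    rw [hI, Finset.prod_ne_zero_iff]
    intro w _
    exact pow_ne_zero _ w.ne_bot
  have hImem : I ∈ (Ideal R)⁰ := mem_nonZeroDivisors_of_ne_zero hI0
  set h : ℕ := Fintype.card (ClassGroup R) with hh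
  have hpos : 0 < h := Fintype.card_pos
  have hpow : ClassGroup.mk0 (⟨I, hImem⟩ ^ h : (Ideal R)⁰) = 1 := by
    rw [map_pow, hh]
    exact pow_card_eq_one
  have hprin : (I ^ h).IsPrincipal := by
    have hmem : I ^ h ∈ (Ideal R)⁰ := pow_mem hImem h
    have : ClassGroup.mk0 ⟨I ^ h, hmem⟩ = 1 := by
      rw [← hpow]
      rfl
    exact (ClassGroup.mk0_eq_one_iff hmem).1 this
  obtain ⟨κ, hκ⟩ := hprin
  have hκ' : I ^ h = Ideal.span {κ} := hκ
  have hκ0 : κ ≠ 0 := by
    rintro rfl
    rw [Ideal.span_singleton_eq_bot.2 rfl] at hκ'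
    exact pow_ne_zero h hI0 hκ'
  refine ⟨h, hpos, κ, hκ0, fun w => ?_⟩
  rw [intValuation_eq_exp_neg_count (FractionRing R) w hκ0, ← hκ', coeIdeal_pow, count_pow,
    count_prod_pow (FractionRing R) s c hc w]
  norm_cast

end

end Fermat.Agent.S55.K.GO3H535.H371
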