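import Fermat.Agent.S55.K.GO3H535.H371.Unram
import Fermat.Agent.S55.K.GO3H535.H371.ClassGp

/-!
# S55 / layer K / GO3-CAPDIV (helper371), part 5: the element `κ`

`F/ℚ` a finite Galois level of `S`, `b ∈ Fˣ`, `p > 0`.  There are `h > 0` and `κ ∈ Fˣ` such that
at every place `A` of `ℚ̄` over a prime `q ∉ S`:  `ord_A(κ) = h · (ord_A(b) mod p)`.
(The divisor `∑_w (ord_w(b) mod p) w` is effective, hence of finite order `h` in the class group
of `F`.)
-/

set_option autoImplicit false
set_option linter.unusedSectionVars false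
set_option linter.style.haveILetI false

noncomputable section

namespace Fermat.Agent.S55.K.GO3H535.H371

open Fermat.Agent.S55.PT Fermat.Agent.S55.Bridge Fermat.Agent.S55.K
open NumberField IsDedekindDomain
open scoped Pointwise

attribute [local instance] isAlgebraic_Qbar isGalois_Qbar

section

variable (F : IntermediateField ℚ (AlgebraicClosure ℚ)) [FiniteDimensional ℚ F] [IsGalois ℚ F]

attribute [local instance] H594.numberField_of_finite

/-- The order of `b ∈ F` at the prime `w`. -/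
def ordW (b : F) (w : HeightOneSpectrum (𝓞 F)) : ℤ := -WithZero.log (w.valuation F b)

theorem valuation_eq_exp_neg_ordW {b : F} (hb : b ≠ 0) (w : HeightOneSpectrum (𝓞 F)) :
    w.valuation F b = WithZero.exp (-ordW F b w) := by
  have hv : w.valuation F b ≠ 0 := (Valuation.ne_zero_iff _).2 hb
  rw [ordW, neg_neg, WithZero.exp_log hv]

theorem ordW_support_finite {b : F} (hb : b ≠ 0) :
    {w : HeightOneSpectrum (𝓞 F) | ordW F b w ≠ 0}.Finite := by
  have h1 := HeightOneSpectrum.Support.finite (𝓞 F) b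
  have h2 := HeightOneSpectrum.Support.finite (𝓞 F) b⁻¹
  refine (h1.union h2).subset fun w hw => ?_
  have hv : w.valuation F b ≠ 0 := (Valuation.ne_zero_iff _).2 hb
  have hne : w.valuation F b ≠ 1 := by
    intro h1
    apply hw
    rw [ordW, h1, WithZero.log_one, neg_zero]
  rcases lt_or_gt_of_ne hne with h | h
  · right
    show 1 < w.valuation F b⁻¹
    rw [map_inv₀]
    exact (one_lt_inv₀ (zero_lt_iff.2 hv)).2 h
  · left
    exact h

variable {S : Finset Nat.Primes}

/-- **The element `κ`.** -/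
theorem exists_kappa (hF : F.IsUnramifiedOutside S) (b : F) (hb : b ≠ 0) (p : ℕ) (hp : 0 < p) :
    ∃ h : ℕ, 0 < h ∧ ∃ κ : F, κ ≠ 0 ∧
      ∀ (q : Nat.Primes), q ∉ S → ∀ (A : ValuationSubring (AlgebraicClosure ℚ)),
        A.LiesOverPrime (q : ℕ) → ∀ n : ℤ, HasOrd A (q : ℕ) (b : AlgebraicClosure ℚ) n →
          HasOrd A (q : ℕ) (κ : AlgebraicClosure ℚ) (h * (n % p)) := by
  classical
  set c : HeightOneSpectrum (𝓞 F) → ℕ := fun w => (ordW F b w % (p : ℤ)).toNat with hc
  have hp0 : (p : ℤ) ≠ 0 := by exact_mod_cast hp.ne'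
  have hcs : ∀ w, w ∉ (ordW_support_finite F hb).toFinset → c w = 0 := by
    intro w hw
    rw [Set.Finite.mem_toFinset, Set.mem_ofPred_eq, not_not] at hw
    simp only [hc, hw, Int.zero_emod, Int.toNat_zero]
  obtain ⟨h, hpos, κ, hκ0, hκ⟩ :=
    exists_elt_intValuation_eq (R := 𝓞 F) (ordW_support_finite F hb).toFinset c hcs
  have hκF : algebraMap (𝓞 F) F κ ≠ 0 := by
    intro h0
    exact hκ0 ((FaithfulSMul.algebraMap_injective (𝓞 F) F) (by rw [h0, map_zero]))
  refine ⟨h, hpos, algebraMap (𝓞 F) F κ, hκF, fun q hq A hA n hn => ?_⟩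
  have h1 : HasOrd A (q : ℕ) (b : AlgebraicClosure ℚ) (ordW F b (placePrime F A q.2 hA)) :=
    hasOrd_of_valuation_eq F hF hq A hA b _ (valuation_eq_exp_neg_ordW F hb _)
  have hn' : n = ordW F b (placePrime F A q.2 hA) := hn.unique q.2.ne_zero hA h1
  have h2 : (placePrime F A q.2 hA).valuation F (algebraMap (𝓞 F) F κ) =
      WithZero.exp (-((h : ℤ) * (n % p))) := by
    rw [HeightOneSpectrum.valuation_of_algebraMap, hκ]
    congr 2
    rw [hn']
    simp only [hc]
    rw [Nat.cast_mul, Int.toNat_of_nonneg (Int.emod_nonneg _ hp0)]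
  exact hasOrd_of_valuation_eq F hF hq A hA _ _ h2

end

end Fermat.Agent.S55.K.GO3H535.H371
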