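import Fermat.Agent.S55.K.GO3H535.H371.Smooth
import Fermat.Agent.S55.K.GO3H535.H371.Kappa

/-!
# S55 / layer K / GO3-CAPDIV (helper371): `capDiv : CapDivSpec p S`

Capitulation of `p`-classes by Kummer theory.  `β` is `S`-smooth and for every `σ ∈ V` the
quotient `σβ/β` is a `p`-th power of an `S`-smooth element up to an `S`-unit.  Let `F ∋ β` be a
Galois level, `c(A) := ord_A(β) mod p ∈ [0, p)` for the places `A` outside `S`; by hypothesis
`c(σ⁻¹A) = c(A)` for `σ ∈ V`.  The effective divisor `∑ c(w) w` of `F` has finite order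
`h = p^a h'` (`p ∤ h'`) in the class group: there is `κ ∈ Fˣ` with `ord_A(κ) = h c(A)`.  Put
`δ := κ^(1/p^a)`, `α₂ := (β^h'/δ)^(1/p)` (both `S`-smooth by the generalised Kummer lemma,
`p ∈ S`) and `α := α₂^r β^s` with `r h' + s p = 1`.  Then `(σα/α)^p / (σβ/β) = (δ/σδ)^r`, and
`δ/σδ` is an `S`-unit since `ord_A(σδ) = h' c(σ⁻¹A) = h' c(A) = ord_A(δ)`.
(No need for `κ ∈ K`, for ideals of `K`, or for the transitivity of Galois on primes.)
-/

set_option autoImplicit false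
set_option linter.unusedSectionVars false
set_option linter.style.haveILetI false

noncomputable section

namespace Fermat.Agent.S55.K.GO3H535.H371

open Fermat.Agent.S55.PT Fermat.Agent.S55.Bridge Fermat.Agent.S55.K
open NumberField IsDedekindDomain IntermediateField
open scoped Pointwise

attribute [local instance] isAlgebraic_Qbar isGalois_Qbar

/-- The identity behind the construction, in any commutative group. -/
theorem capDiv_identity {G : Type*} [CommGroup G] (X D Y : G) (p h' : ℕ) (r s : ℤ)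
    (hY : Y ^ p = X ^ h' * D) (hrs : r * h' + s * p = 1) :
    (Y ^ r * X ^ s) ^ p / X = D ^ r := by
  have e1 : (Y ^ r * X ^ s) ^ p = (Y ^ p) ^ r * X ^ (s * p) := by
    rw [mul_pow, ← zpow_natCast (Y ^ r) p, ← zpow_mul, mul_comm r (p : ℤ), zpow_mul,
      zpow_natCast, ← zpow_natCast (X ^ s) p, ← zpow_mul]
  have e2 : (Y ^ p) ^ r = X ^ ((h' : ℤ) * r) * D ^ r := by
    rw [hY, mul_zpow, ← zpow_natCast X h', ← zpow_mul]
  have e3 : X ^ ((h' : ℤ) * r) * D ^ r * X ^ (s * p) / X =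
      D ^ r * X ^ ((h' : ℤ) * r + s * p - 1) := by
    rw [zpow_sub, zpow_add, zpow_one, div_eq_mul_inv]
    simp only [mul_assoc, mul_left_comm (D ^ r)]
  rw [e1, e2, e3, show (h' : ℤ) * r + s * p - 1 = 0 by linarith, zpow_zero, mul_one]

/-- A valuation subring of `ℚ̄` is trivial or lies over a prime number. -/
theorem unitAt_or_liesOverPrime (A : ValuationSubring Qbar) :
    (∀ x : Qbar, x ≠ 0 → UnitAt A x) ∨ ∃ q : Nat.Primes, A.LiesOverPrime (q : ℕ) := by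
  by_cases h : ∃ q : Nat.Primes, A.LiesOverPrime (q : ℕ)
  · exact Or.inr h
  left
  have h' : ∀ ℓ : ℕ, ℓ.Prime → ((ℓ : Qbar))⁻¹ ∈ A := by
    intro ℓ hℓ
    have hn : (ℓ : Qbar) ∉ A.nonunits := fun hmem => h ⟨⟨ℓ, hℓ⟩, hmem⟩
    rw [ValuationSubring.mem_nonunits_iff_or] at hn
    push Not at hn
    exact hn.2
  have hnat : ∀ n : ℕ, n ≠ 0 → ((n : Qbar))⁻¹ ∈ A := by
    intro n
    induction n using Nat.recOnMul with
    | zero => intro h0; exact absurd rfl h0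
    | one => intro _; simp
    | prime ℓ hℓ => intro _; exact h' ℓ hℓ
    | mul a b iha ihb =>
      intro hab
      rw [Nat.cast_mul, mul_inv]
      exact A.mul_mem _ _ (iha (left_ne_zero_of_mul hab)) (ihb (right_ne_zero_of_mul hab))
  have hrat : ∀ t : ℚ, (algebraMap ℚ Qbar t) ∈ A := by
    intro t
    have ht : algebraMap ℚ Qbar t = (t.num : Qbar) * ((t.den : Qbar))⁻¹ := by
      conv_lhs => rw [← Rat.num_div_den t]
      rw [map_div₀, div_eq_mul_inv]
      simp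
    rw [ht]
    exact A.mul_mem _ _ (intCast_mem A _) (hnat t.den t.den_nz)
  have hall : ∀ x : Qbar, x ∈ A := by
    intro x
    have hint : IsIntegral ℚ x := Algebra.IsIntegral.isIntegral x
    obtain ⟨P, hP, hroot⟩ := hint
    have hi : IsIntegral A x := by
      refine ⟨P.map (RingHom.codRestrict (algebraMap ℚ Qbar) A.toSubring hrat), hP.map _, ?_⟩
      rw [Polynomial.eval₂_map]
      exact hroot
    obtain ⟨y, hy⟩ := (IsIntegrallyClosed.isIntegral_iff (R := A) (K := Qbar)).mp hi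
    rw [← hy]
    exact y.2
  intro x hx
  exact (unitAt_iff_mem hx).2 ⟨hall x, hall x⁻¹⟩

variable {S : Finset Nat.Primes}

/-- To be an `S`-unit it suffices to be a unit at the places over the primes outside `S`. -/
theorem isSUnit_of_forall_liesOver (x : Qbarˣ)
    (h : ∀ q : Nat.Primes, q ∉ S → ∀ A : ValuationSubring Qbar, A.LiesOverPrime (q : ℕ) →
      UnitAt A (x : Qbar)) : IsSUnit S x := by
  rw [isSUnit_iff]
  intro A hA
  rcases unitAt_or_liesOverPrime A with htriv | ⟨q, hq⟩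
  · exact htriv _ x.ne_zero
  · exact h q (fun hqS => hA q hqS hq) A hq

/-- Extraction of a `p^a`-th root of an `S`-smooth element whose orders outside `S` are divisible
by `p^a`: the root is `S`-smooth, with the expected orders. -/
theorem exists_root {p : ℕ} (hp : p.Prime) (hpS : (⟨p, hp⟩ : Nat.Primes) ∈ S) (a : ℕ)
    (x : Qbarˣ) (hx : IsSm S x)
    (hord : ∀ q : Nat.Primes, q ∉ S → ∀ A : ValuationSubring Qbar, A.LiesOverPrime (q : ℕ) →
      ∃ m : ℤ, HasOrd A (q : ℕ) (x : Qbar) (((p ^ a : ℕ) : ℤ) * m)) :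
    ∃ y : Qbarˣ, y ^ (p ^ a) = x ∧ IsSm S y ∧
      ∀ q : Nat.Primes, q ∉ S → ∀ A : ValuationSubring Qbar, A.LiesOverPrime (q : ℕ) →
        ∀ m : ℤ, HasOrd A (q : ℕ) (x : Qbar) (((p ^ a : ℕ) : ℤ) * m) →
          HasOrd A (q : ℕ) (y : Qbar) m := by
  have hn0 : p ^ a ≠ 0 := pow_ne_zero a hp.ne_zero
  obtain ⟨z, hz⟩ := IsAlgClosed.exists_pow_nat_eq (x : Qbar) (Nat.pos_of_ne_zero hn0)
  have hz0 : z ≠ 0 := by
    rintro rfl
    rw [zero_pow hn0] at hz
    exact x.ne_zero hz.symm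
  have hy : (Units.mk0 z hz0) ^ (p ^ a) = x := by
    apply Units.ext
    rw [Units.val_pow_eq_pow_val, Units.val_mk0, hz]
  have key : ∀ q : Nat.Primes, q ∉ S → ∀ A : ValuationSubring Qbar, A.LiesOverPrime (q : ℕ) →
      ∀ m : ℤ, HasOrd A (q : ℕ) (x : Qbar) (((p ^ a : ℕ) : ℤ) * m) →
        HasOrd A (q : ℕ) z m := by
    intro q _ A _ m hm
    rw [hasOrd_iff_unitAt q.2.ne_zero] at hm ⊢
    apply unitAt_of_pow hn0
    rw [div_pow, hz, ← zpow_natCast (((q : ℕ) : Qbar) ^ m) (p ^ a), ← zpow_mul, mul_comm m]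
    exact hm
  refine ⟨Units.mk0 z hz0, hy, ?_, key⟩
  refine isSm_of_pow hp hpS a (Units.mk0 z hz0) (by rw [hy]; exact hx) ?_
  intro q hq A hA
  obtain ⟨m, hm⟩ := hord q hq A hA
  exact ⟨m, key q hq A hA m hm⟩

/-- A place over a prime outside `S` is outside `S`. -/
theorem outsideS_of_liesOver {q : Nat.Primes} (hq : q ∉ S) {A : ValuationSubring Qbar}
    (hA : A.LiesOverPrime (q : ℕ)) : OutsideS S A := by
  intro q' hq' hA'
  have hne : (q : ℕ) ≠ (q' : ℕ) := by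
    intro h
    apply hq
    rw [Subtype.ext h]
    exact hq'
  have h1 : A.valuation ((q' : ℕ) : AlgebraicClosure ℚ) = 1 :=
    val_prime_eq_one (A := A) hA q.2 q'.2 hne
  have h2 : A.valuation ((q' : ℕ) : AlgebraicClosure ℚ) < 1 := (A.mem_nonunits_iff).mp hA'
  rw [h1] at h2
  exact lt_irrefl _ h2

/-- **GO3-CAPDIV.** -/
theorem capDiv (p : ℕ) [Fact p.Prime] (S : Finset Nat.Primes) : CapDivSpec p S := by
  intro hpS V _ β hβ hw
  have hp : p.Prime := Fact.out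
  have hpS' : (⟨p, hp⟩ : Nat.Primes) ∈ S := hpS
  have hp0 : (p : ℤ) ≠ 0 := by exact_mod_cast hp.ne_zero
  -- a Galois level containing `β`
  obtain ⟨F, hF, hgal, hβF⟩ := (isSm_iff_galois β).1 hβ
  haveI := hF.1
  haveI := hgal
  have hb0 : (⟨(β : Qbar), hβF⟩ : F) ≠ 0 := by
    intro h
    exact β.ne_zero (congrArg (fun x : F => (x : Qbar)) h)
  obtain ⟨h, hpos, κ, hκ0, hκ⟩ := exists_kappa F hF ⟨(β : Qbar), hβF⟩ hb0 p hp.pos
  obtain ⟨a, h', hh', hh⟩ := Nat.exists_eq_pow_mul_and_not_dvd hpos.ne' p hp.ne_one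
  have hordβ : ∀ q : Nat.Primes, q ∉ S → ∀ A : ValuationSubring Qbar, A.LiesOverPrime (q : ℕ) →
      ∃ n : ℤ, HasOrd A (q : ℕ) (β : Qbar) n := fun q hq A hA => isSm_exists_hasOrd hβ hq A hA
  -- `κ` as a unit of `ℚ̄`
  have hκQ0 : ((κ : F) : Qbar) ≠ 0 := by
    intro h0
    exact hκ0 (Subtype.ext h0)
  have hκsm : IsSm S (Units.mk0 ((κ : F) : Qbar) hκQ0) := (isSm_iff _).2 ⟨F, hF, κ.2⟩
  have hκord : ∀ q : Nat.Primes, q ∉ S → ∀ A : ValuationSubring Qbar, A.LiesOverPrime (q : ℕ) →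
      ∀ n : ℤ, HasOrd A (q : ℕ) (β : Qbar) n →
        HasOrd A (q : ℕ) ((Units.mk0 ((κ : F) : Qbar) hκQ0 : Qbarˣ) : Qbar)
          (((p ^ a : ℕ) : ℤ) * ((h' : ℤ) * (n % p))) := by
    intro q hq A hA n hn
    have := hκ q hq A hA n hn
    rw [hh, Nat.cast_mul, mul_assoc] at this
    exact this
  -- `δ = κ^(1/p^a)`
  obtain ⟨δ, hδ, hδsm, hδord⟩ := exists_root hp hpS' a _ hκsm (fun q hq A hA => by
    obtain ⟨n, hn⟩ := hordβ q hq A hA
    exact ⟨(h' : ℤ) * (n % p), hκord q hq A hA n hn⟩)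
  have hδord' : ∀ q : Nat.Primes, q ∉ S → ∀ A : ValuationSubring Qbar,
      A.LiesOverPrime (q : ℕ) → ∀ n : ℤ, HasOrd A (q : ℕ) (β : Qbar) n →
        HasOrd A (q : ℕ) (δ : Qbar) ((h' : ℤ) * (n % p)) := fun q hq A hA n hn =>
    hδord q hq A hA _ (hκord q hq A hA n hn)
  -- `γ = β^h' / δ`, `α₂ = γ^(1/p)`
  have hγsm : IsSm S (β ^ h' / δ) := isSm_div (isSm_pow hβ h') hδsm
  have hγord : ∀ q : Nat.Primes, q ∉ S → ∀ A : ValuationSubring Qbar,
      A.LiesOverPrime (q : ℕ) → ∀ n : ℤ, HasOrd A (q : ℕ) (β : Qbar) n →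
        HasOrd A (q : ℕ) ((β ^ h' / δ : Qbarˣ) : Qbar)
          (((p ^ 1 : ℕ) : ℤ) * ((h' : ℤ) * (n / p))) := by
    intro q hq A hA n hn
    have h1 := (hn.pow h').div q.2.ne_zero (hδord' q hq A hA n hn)
    rw [Units.val_div_eq_div_val, Units.val_pow_eq_pow_val]
    have e : n * (h' : ℤ) - (h' : ℤ) * (n % p) = ((p ^ 1 : ℕ) : ℤ) * ((h' : ℤ) * (n / p)) := by
      have := Int.emod_add_mul_ediv n p
      rw [pow_one]
      linear_combination (-(h' : ℤ)) * this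
    rw [← e]
    exact h1
  obtain ⟨α₂, hα₂, hα₂sm, -⟩ := exists_root hp hpS' 1 _ hγsm (fun q hq A hA => by
    obtain ⟨n, hn⟩ := hordβ q hq A hA
    exact ⟨(h' : ℤ) * (n / p), hγord q hq A hA n hn⟩)
  rw [pow_one] at hα₂
  -- Bezout
  have hcop : IsCoprime (h' : ℤ) (p : ℤ) := by
    rw [Int.isCoprime_iff_gcd_eq_one, Int.gcd_natCast_natCast, Nat.gcd_comm]
    exact (Nat.Prime.coprime_iff_not_dvd hp).2 hh'
  obtain ⟨r, s, hrs⟩ := hcop
  refine ⟨α₂ ^ r * β ^ s, isSm_mul (isSm_zpow hα₂sm r) (isSm_zpow hβ s), fun σ hσ => ?_⟩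
  -- the identity
  have hY : (σ • α₂ / α₂) ^ p = (σ • β / β) ^ h' * (δ / σ • δ) := by
    rw [div_pow, ← smul_pow', hα₂, smul_div', smul_pow', div_pow]
    rw [div_mul_div_comm, div_div_div_eq, mul_comm (σ • δ)]
  have hid : (σ • (α₂ ^ r * β ^ s) / (α₂ ^ r * β ^ s)) ^ p / (σ • β / β) = (δ / σ • δ) ^ r := by
    rw [← capDiv_identity (σ • β / β) (δ / σ • δ) (σ • α₂ / α₂) p h' r s hY hrs]
    congr 2
    rw [smul_mul', smul_zpow', smul_zpow', div_zpow, div_zpow, mul_div_mul_comm]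
  rw [hid]
  -- `δ / σδ` is an `S`-unit
  apply isSUnit_of_forall_liesOver
  intro q hq A hA
  rw [Units.val_zpow_eq_zpow_val, Units.val_div_eq_div_val, coe_smul_units]
  apply UnitAt.zpow
  obtain ⟨n, hn⟩ := hordβ q hq A hA
  have hA' : (σ⁻¹ • A).LiesOverPrime (q : ℕ) := liesOverPrime_smul A σ⁻¹ q hA
  obtain ⟨n', hn'⟩ := hordβ q hq (σ⁻¹ • A) hA'
  have h1 : HasOrd A (q : ℕ) (δ : Qbar) ((h' : ℤ) * (n % p)) := hδord' q hq A hA n hn
  have h2 : HasOrd A (q : ℕ) (σ (δ : Qbar)) ((h' : ℤ) * (n' % p)) :=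
    (hasOrd_inv_smul_iff q.2.ne_zero σ _ _).1 (hδord' q hq _ hA' n' hn')
  have hnn : n' % (p : ℤ) = n % p := by
    obtain ⟨w, hwsm, hwu⟩ := hw σ hσ
    obtain ⟨m, hm⟩ := isSm_exists_hasOrd hwsm hq A hA
    have hu : UnitAt A ((w ^ p / (σ • β / β) : Qbarˣ) : Qbar) :=
      (isSUnit_iff S _).1 hwu A (outsideS_of_liesOver hq hA)
    have hσβ : HasOrd A (q : ℕ) (σ (β : Qbar)) n' := (hasOrd_inv_smul_iff q.2.ne_zero σ _ _).1 hn'
    rw [Units.val_div_eq_div_val, Units.val_div_eq_div_val, Units.val_pow_eq_pow_val,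
      coe_smul_units] at hu
    have h3 := (hm.pow p).div q.2.ne_zero (hσβ.div q.2.ne_zero hn)
    have h4 := h3.eq_zero_of_unitAt q.2.ne_zero hA hu
    have h5 : n' = n + m * p := by linarith
    rw [h5, Int.add_mul_emod_self_right]
  rw [hnn] at h2
  have h6 := h1.div q.2.ne_zero h2
  rw [sub_self] at h6
  exact (hasOrd_zero_iff _).1 h6

end Fermat.Agent.S55.K.GO3H535.H371
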