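import Fermat.Agent.S55.K.GO3H535.Spec

/-!
# S55 / layer K / GO3-CAPDIV (helper371), part 1: units and orders at a place of `ℚ̄`

`A` a valuation subring of `ℚ̄`, `q` a natural number (a prime below `A`).

* `UnitAt A x`     : `x` is a unit of `A` (`A.valuation x = 1`);
* `HasOrd A q x n` : `x / q ^ n` is a unit of `A` (`A.valuation x = A.valuation q ^ n`);
* algebra of both notions, uniqueness of the order, behaviour under `G_ℚ`;
* `isSUnit_iff` : `IsSUnit S x ↔ ∀ A outside S, UnitAt A x`.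
-/

set_option autoImplicit false

noncomputable section

namespace Fermat.Agent.S55.K.GO3H535.H371

open Fermat.Agent.S55.PT Fermat.Agent.S55.Bridge Fermat.Agent.S55.K
open scoped Pointwise

variable (A : ValuationSubring Qbar)

/-- `x` is a unit of the valuation subring `A`. -/
def UnitAt (x : Qbar) : Prop := A.valuation x = 1

variable {A}

theorem UnitAt.ne_zero {x : Qbar} (h : UnitAt A x) : x ≠ 0 := by
  rintro rfl
  rw [UnitAt, map_zero] at h
  exact zero_ne_one h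

theorem unitAt_one : UnitAt A (1 : Qbar) := map_one _

theorem UnitAt.mul {x y : Qbar} (hx : UnitAt A x) (hy : UnitAt A y) : UnitAt A (x * y) := by
  rw [UnitAt, map_mul, hx, hy, mul_one]

theorem UnitAt.inv {x : Qbar} (hx : UnitAt A x) : UnitAt A x⁻¹ := by
  rw [UnitAt, map_inv₀, hx, inv_one]

theorem UnitAt.div {x y : Qbar} (hx : UnitAt A x) (hy : UnitAt A y) : UnitAt A (x / y) := by
  rw [UnitAt, map_div₀, hx, hy, div_one]

theorem UnitAt.pow {x : Qbar} (hx : UnitAt A x) (n : ℕ) : UnitAt A (x ^ n) := by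
  rw [UnitAt, map_pow, hx, one_pow]

theorem UnitAt.zpow {x : Qbar} (hx : UnitAt A x) (n : ℤ) : UnitAt A (x ^ n) := by
  rw [UnitAt, map_zpow₀, hx, one_zpow]

theorem unitAt_of_pow {x : Qbar} {n : ℕ} (hn : n ≠ 0) (hx : UnitAt A (x ^ n)) : UnitAt A x := by
  rw [UnitAt, map_pow] at hx
  exact (pow_eq_one_iff_of_nonneg zero_le hn).1 hx

theorem unitAt_iff_mem {x : Qbar} (hx : x ≠ 0) : UnitAt A x ↔ x ∈ A ∧ x⁻¹ ∈ A := by
  constructor
  · intro h
    exact ⟨(A.valuation_le_one_iff _).1 h.le, (A.valuation_le_one_iff _).1 h.inv.le⟩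
  · rintro ⟨h1, h2⟩
    have h3 : A.valuation x ≤ 1 := (A.valuation_le_one_iff _).2 h1
    have h4 : A.valuation x⁻¹ ≤ 1 := (A.valuation_le_one_iff _).2 h2
    have h0 : A.valuation x ≠ 0 := (Valuation.ne_zero_iff _).2 hx
    rw [map_inv₀] at h4
    exact le_antisymm h3 ((inv_le_one₀ (zero_lt_iff.2 h0)).1 h4)

theorem unitAt_units_iff (x : Qbarˣ) :
    UnitAt A (x : Qbar) ↔ (x : Qbar) ∈ A ∧ ((x⁻¹ : Qbarˣ) : Qbar) ∈ A := by
  rw [unitAt_iff_mem x.ne_zero, Units.val_inv_eq_inv_val]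

theorem isSUnit_iff (S : Finset Nat.Primes) (x : Qbarˣ) :
    IsSUnit S x ↔ ∀ A : ValuationSubring Qbar, OutsideS S A → UnitAt A (x : Qbar) := by
  constructor
  · intro h A hA
    exact (unitAt_units_iff x).2 (h A hA)
  · intro h A hA
    exact (unitAt_units_iff x).1 (h A hA)

theorem unitAt_smul_iff (σ : GQ) (x : Qbar) : UnitAt (σ • A) x ↔ UnitAt A (σ⁻¹ x) := by
  rcases eq_or_ne x 0 with rfl | hx
  · rw [map_zero]
    exact ⟨fun h => absurd rfl h.ne_zero, fun h => absurd rfl h.ne_zero⟩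
  · have hx' : σ⁻¹ x ≠ 0 := by
      rw [Ne, map_eq_zero_iff _ (σ⁻¹).injective]
      exact hx
    rw [unitAt_iff_mem hx, unitAt_iff_mem hx', mem_smul_valuationSubring_iff,
      mem_smul_valuationSubring_iff, map_inv₀]

theorem unitAt_inv_smul_iff (σ : GQ) (x : Qbar) : UnitAt (σ⁻¹ • A) x ↔ UnitAt A (σ x) := by
  rw [unitAt_smul_iff, inv_inv]

variable (A)

/-- `x` has order `n` at the place `A` with respect to `q`: `x / q ^ n` is a unit of `A`. -/
def HasOrd (q : ℕ) (x : Qbar) (n : ℤ) : Prop := A.valuation x = A.valuation (q : Qbar) ^ n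

variable {A} {q : ℕ}

theorem hasOrd_iff_unitAt (hq : q ≠ 0) (x : Qbar) (n : ℤ) :
    HasOrd A q x n ↔ UnitAt A (x / (q : Qbar) ^ n) := by
  have hq0 : A.valuation (q : Qbar) ≠ 0 := by
    rw [Valuation.ne_zero_iff]
    exact_mod_cast hq
  have hqn : A.valuation (q : Qbar) ^ n ≠ 0 := zpow_ne_zero n hq0
  rw [HasOrd, UnitAt, map_div₀, map_zpow₀, div_eq_one_iff_eq hqn]

theorem HasOrd.ne_zero (hq : q ≠ 0) {x : Qbar} {n : ℤ} (h : HasOrd A q x n) : x ≠ 0 := by
  rintro rfl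
  have := ((hasOrd_iff_unitAt hq _ _).1 h).ne_zero
  simp at this

theorem hasOrd_zero_iff (x : Qbar) : HasOrd A q x 0 ↔ UnitAt A x := by
  rw [HasOrd, UnitAt, zpow_zero]

theorem hasOrd_natCast : HasOrd A q (q : Qbar) 1 := by
  rw [HasOrd, zpow_one]

theorem HasOrd.mul {x y : Qbar} {n m : ℤ} (hq : q ≠ 0) (hx : HasOrd A q x n)
    (hy : HasOrd A q y m) : HasOrd A q (x * y) (n + m) := by
  have hq0 : A.valuation (q : Qbar) ≠ 0 := by
    rw [Valuation.ne_zero_iff]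
    exact_mod_cast hq
  rw [HasOrd, map_mul, hx, hy, zpow_add₀ hq0]

theorem HasOrd.inv {x : Qbar} {n : ℤ} (hx : HasOrd A q x n) : HasOrd A q x⁻¹ (-n) := by
  rw [HasOrd, map_inv₀, hx, zpow_neg]

theorem HasOrd.div {x y : Qbar} {n m : ℤ} (hq : q ≠ 0) (hx : HasOrd A q x n)
    (hy : HasOrd A q y m) : HasOrd A q (x / y) (n - m) := by
  rw [div_eq_mul_inv, sub_eq_add_neg]
  exact hx.mul hq hy.inv

theorem HasOrd.pow {x : Qbar} {n : ℤ} (hx : HasOrd A q x n) (k : ℕ) :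
    HasOrd A q (x ^ k) (n * k) := by
  rw [HasOrd, map_pow, hx, zpow_mul, zpow_natCast]

theorem HasOrd.zpow {x : Qbar} {n : ℤ} (hx : HasOrd A q x n) (k : ℤ) :
    HasOrd A q (x ^ k) (n * k) := by
  rw [HasOrd, map_zpow₀, hx, zpow_mul]

theorem HasOrd.of_unitAt {x : Qbar} (hx : UnitAt A x) : HasOrd A q x 0 :=
  (hasOrd_zero_iff x).2 hx

/-- The order is unique at a place over `q`. -/
theorem HasOrd.unique (hq : q ≠ 0) (hA : A.LiesOverPrime q) {x : Qbar} {n m : ℤ}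
    (hn : HasOrd A q x n) (hm : HasOrd A q x m) : n = m := by
  have hq0 : A.valuation (q : Qbar) ≠ 0 := by
    rw [Valuation.ne_zero_iff]
    exact_mod_cast hq
  have hlt : A.valuation (q : Qbar) < 1 := (A.mem_nonunits_iff).mp hA
  have h : A.valuation (q : Qbar) ^ n = A.valuation (q : Qbar) ^ m := hn.symm.trans hm
  exact zpow_right_injective₀ (zero_lt_iff.2 hq0) hlt.ne h

/-- A unit with an order has order `0`. -/
theorem HasOrd.eq_zero_of_unitAt (hq : q ≠ 0) (hA : A.LiesOverPrime q) {x : Qbar} {n : ℤ}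
    (hn : HasOrd A q x n) (hx : UnitAt A x) : n = 0 :=
  hn.unique hq hA (HasOrd.of_unitAt hx)

theorem HasOrd.unitAt_of_eq_zero {x : Qbar} {n : ℤ} (hn : HasOrd A q x n) (h0 : n = 0) :
    UnitAt A x := by
  subst h0
  exact (hasOrd_zero_iff x).1 hn

theorem hasOrd_smul_iff (hq : q ≠ 0) (σ : GQ) (x : Qbar) (n : ℤ) :
    HasOrd (σ • A) q x n ↔ HasOrd A q (σ⁻¹ x) n := by
  rw [hasOrd_iff_unitAt hq, hasOrd_iff_unitAt hq, unitAt_smul_iff, map_div₀, map_zpow₀,
    map_natCast]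

theorem hasOrd_inv_smul_iff (hq : q ≠ 0) (σ : GQ) (x : Qbar) (n : ℤ) :
    HasOrd (σ⁻¹ • A) q x n ↔ HasOrd A q (σ x) n := by
  rw [hasOrd_smul_iff hq, inv_inv]

end Fermat.Agent.S55.K.GO3H535.H371
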