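import Fermat.Agent.S55.K.GO3H535.H371.Unram
import Fermat.Agent.S55.Bridge.SUnitsDiv

/-!
# S55 / layer K / GO3-CAPDIV (helper371), part 3: `S`-smooth elements and Kummer theory

* `isSm_iff`, `isSm_iff_galois` : `IsSm S a ↔ a ∈ F` for some (Galois) level `F`;
* `isSm_mul`, `isSm_inv`, `isSm_div`, `isSm_pow`, `isSm_zpow`, `isSm_smul`;
* `isSm_exists_hasOrd` : an `S`-smooth element has an (integral) order at every place over
  `q ∉ S`;
* `isSm_of_pow` (generalised Kummer): if `y ^ n` is `S`-smooth, `n` a power of `p ∈ S`, and `y`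
  has an integral order at every place outside `S`, then `y` is `S`-smooth.
-/

set_option autoImplicit false
set_option linter.unusedSectionVars false
set_option linter.style.haveILetI false

noncomputable section

namespace Fermat.Agent.S55.K.GO3H535.H371

open Fermat.Agent.S55.PT Fermat.Agent.S55.Bridge Fermat.Agent.S55.K
open NumberField IsDedekindDomain IntermediateField
open scoped Pointwise

attribute [local instance] isAlgebraic_Qbar isGalois_Qbar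

variable {S : Finset Nat.Primes}

theorem coe_smul_units (σ : GQ) (a : Qbarˣ) : ((σ • a : Qbarˣ) : Qbar) = σ (a : Qbar) := rfl

theorem isSm_iff (a : Qbarˣ) :
    IsSm S a ↔ ∃ F : IntermediateField ℚ (AlgebraicClosure ℚ),
      F.IsUnramifiedOutside S ∧ (a : Qbar) ∈ F := by
  constructor
  · rintro ⟨U, ⟨F, hF, rfl⟩, h⟩
    refine ⟨F, hF, ?_⟩
    rw [← InfiniteGalois.fixedField_fixingSubgroup F, IntermediateField.mem_fixedField_iff]
    intro σ hσ
    have := congrArg (fun u : Qbarˣ => (u : Qbar)) (h σ hσ)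
    exact this
  · rintro ⟨F, hF, ha⟩
    refine ⟨F.fixingSubgroup, ⟨F, hF, rfl⟩, fun s hs => ?_⟩
    apply Units.ext
    rw [coe_smul_units]
    exact (IntermediateField.mem_fixingSubgroup_iff F s).1 hs _ ha

theorem isSm_iff_galois (a : Qbarˣ) :
    IsSm S a ↔ ∃ F : IntermediateField ℚ (AlgebraicClosure ℚ),
      F.IsUnramifiedOutside S ∧ IsGalois ℚ F ∧ (a : Qbar) ∈ F := by
  rw [isSm_iff]
  constructor
  · rintro ⟨F, hF, ha⟩
    obtain ⟨L, hL, hgal, hle⟩ := exists_galois_level_ge S F hF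
    exact ⟨L, hL, hgal, hle ha⟩
  · rintro ⟨F, hF, -, ha⟩
    exact ⟨F, hF, ha⟩

theorem isSm_one : IsSm S (1 : Qbarˣ) :=
  (isSm_iff 1).2 ⟨⊥, IntermediateField.isUnramifiedOutside_bot S, by simp⟩

theorem isSm_mul {a b : Qbarˣ} (ha : IsSm S a) (hb : IsSm S b) : IsSm S (a * b) := by
  obtain ⟨F, hF, haF⟩ := (isSm_iff a).1 ha
  obtain ⟨F', hF', hbF⟩ := (isSm_iff b).1 hb
  refine (isSm_iff _).2 ⟨F ⊔ F', hF.sup hF', ?_⟩
  rw [Units.val_mul]
  exact mul_mem ((le_sup_left : F ≤ F ⊔ F') haF) ((le_sup_right : F' ≤ F ⊔ F') hbF)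

theorem isSm_inv {a : Qbarˣ} (ha : IsSm S a) : IsSm S a⁻¹ := by
  obtain ⟨F, hF, haF⟩ := (isSm_iff a).1 ha
  refine (isSm_iff _).2 ⟨F, hF, ?_⟩
  rw [Units.val_inv_eq_inv_val]
  exact inv_mem haF

theorem isSm_div {a b : Qbarˣ} (ha : IsSm S a) (hb : IsSm S b) : IsSm S (a / b) := by
  rw [div_eq_mul_inv]
  exact isSm_mul ha (isSm_inv hb)

theorem isSm_pow {a : Qbarˣ} (ha : IsSm S a) (n : ℕ) : IsSm S (a ^ n) := by
  obtain ⟨F, hF, haF⟩ := (isSm_iff a).1 ha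
  refine (isSm_iff _).2 ⟨F, hF, ?_⟩
  rw [Units.val_pow_eq_pow_val]
  exact pow_mem haF n

theorem isSm_zpow {a : Qbarˣ} (ha : IsSm S a) (n : ℤ) : IsSm S (a ^ n) := by
  obtain ⟨m, rfl | rfl⟩ := Int.eq_nat_or_neg n
  · rw [zpow_natCast]
    exact isSm_pow ha m
  · rw [zpow_neg, zpow_natCast]
    exact isSm_inv (isSm_pow ha m)

theorem isSm_smul {a : Qbarˣ} (ha : IsSm S a) (σ : GQ) : IsSm S (σ • a) := by
  obtain ⟨F, hF, hgal, haF⟩ := (isSm_iff_galois a).1 ha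
  refine (isSm_iff _).2 ⟨F, hF, ?_⟩
  rw [coe_smul_units]
  haveI := hF.1
  haveI := hgal
  have h := H594.restrictNormalHom_apply F σ ⟨(a : Qbar), haF⟩
  rw [← h]
  exact (AlgEquiv.restrictNormalHom F σ ⟨(a : Qbar), haF⟩).2

/-- An `S`-smooth element has an integral order at every place over a prime outside `S`. -/
theorem isSm_exists_hasOrd {a : Qbarˣ} (ha : IsSm S a) {q : Nat.Primes} (hq : q ∉ S)
    (A : ValuationSubring (AlgebraicClosure ℚ)) (hA : A.LiesOverPrime (q : ℕ)) :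
    ∃ n : ℤ, HasOrd A (q : ℕ) (a : Qbar) n := by
  obtain ⟨F, hF, hgal, haF⟩ := (isSm_iff_galois a).1 ha
  haveI := hF.1
  haveI := hgal
  have h0 : (⟨(a : Qbar), haF⟩ : F) ≠ 0 := by
    intro h
    exact a.ne_zero (congrArg (fun x : F => (x : Qbar)) h)
  exact exists_hasOrd_of_mem F hF hq A hA ⟨(a : Qbar), haF⟩ h0

/-- **Generalised Kummer lemma.**  Let `p ∈ S`, `n` a power of `p`.  If `y ^ n` is `S`-smooth and
`y` has an integral order at every place over a prime outside `S`, then `y` is `S`-smooth. -/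
theorem isSm_of_pow {p : ℕ} (hp : p.Prime) (hpS : (⟨p, hp⟩ : Nat.Primes) ∈ S) (a : ℕ)
    (y : Qbarˣ) (hy : IsSm S (y ^ (p ^ a)))
    (hord : ∀ q : Nat.Primes, q ∉ S → ∀ A : ValuationSubring (AlgebraicClosure ℚ),
      A.LiesOverPrime (q : ℕ) → ∃ m : ℤ, HasOrd A (q : ℕ) (y : Qbar) m) :
    IsSm S y := by
  obtain ⟨F, hF, hyF⟩ := (isSm_iff _).1 hy
  rw [Units.val_pow_eq_pow_val] at hyF
  haveI := hF.1
  haveI : FiniteDimensional ℚ ℚ⟮(y : Qbar)⟯ :=
    IntermediateField.adjoin.finiteDimensional (Algebra.IsIntegral.isIntegral (y : Qbar))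
  refine (isSm_iff y).2 ⟨F ⊔ ℚ⟮(y : Qbar)⟯, ⟨IntermediateField.finiteDimensional_sup F _,
    fun q hq A hA σ hσ => ?_⟩,
    (le_sup_right : ℚ⟮(y : Qbar)⟯ ≤ F ⊔ ℚ⟮(y : Qbar)⟯) (IntermediateField.mem_adjoin_simple_self ℚ _)⟩
  have hσF : σ ∈ F.fixingSubgroup := hF.2 q hq A hA hσ
  rw [IntermediateField.fixingSubgroup_sup]
  refine ⟨hσF, ?_⟩
  show σ ∈ ℚ⟮(y : Qbar)⟯.fixingSubgroup
  have hqp : (q : ℕ) ≠ p := by
    intro h
    apply hq
    have : q = ⟨p, hp⟩ := Subtype.ext h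
    rw [this]
    exact hpS
  have hpv : A.valuation (p : AlgebraicClosure ℚ) = 1 := val_prime_eq_one (A := A) hA q.2 hp hqp
  have hnv : A.valuation (((p ^ a : ℕ) : ℕ) : AlgebraicClosure ℚ) = 1 := by
    rw [Nat.cast_pow, map_pow, hpv, one_pow]
  obtain ⟨m, hm⟩ := hord q hq A hA
  have hz : UnitAt A ((y : Qbar) / ((q : ℕ) : Qbar) ^ m) := (hasOrd_iff_unitAt q.2.ne_zero _ _).1 hm
  have hσq : σ (((q : ℕ) : Qbar) ^ m) = ((q : ℕ) : Qbar) ^ m := by
    rw [map_zpow₀, map_natCast]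
  have hfix : σ (((y : Qbar) / ((q : ℕ) : Qbar) ^ m) ^ (p ^ a)) =
      ((y : Qbar) / ((q : ℕ) : Qbar) ^ m) ^ (p ^ a) := by
    rw [div_pow, map_div₀, map_pow σ (((q : ℕ) : Qbar) ^ m), hσq]
    congr 1
    exact (IntermediateField.mem_fixingSubgroup_iff F σ).1 hσF _ hyF
  have hσz : σ ((y : Qbar) / ((q : ℕ) : Qbar) ^ m) = (y : Qbar) / ((q : ℕ) : Qbar) ^ m :=
    kummer_unit_fixed_of_mem_inertia (pow_ne_zero a hp.ne_zero) hnv hσ hfix hz
  have hq0 : ((q : ℕ) : Qbar) ^ m ≠ 0 := zpow_ne_zero m (by exact_mod_cast q.2.ne_zero)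
  have hσy : σ (y : Qbar) = (y : Qbar) := by
    rw [map_div₀, hσq] at hσz
    exact (div_left_inj' hq0).1 hσz
  rw [IntermediateField.mem_fixingSubgroup_iff]
  intro x hx
  have hle : ℚ⟮(y : Qbar)⟯ ≤ IntermediateField.fixedField (Subgroup.zpowers σ) := by
    rw [IntermediateField.adjoin_simple_le_iff]
    rintro ⟨τ, hτ⟩
    obtain ⟨k, rfl⟩ := Subgroup.mem_zpowers_iff.1 hτ
    show (σ ^ k) • (y : Qbar) = (y : Qbar)
    have hstab : σ ∈ MulAction.stabilizer (AlgebraicClosure ℚ ≃ₐ[ℚ] AlgebraicClosure ℚ)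
        (y : Qbar) := MulAction.mem_stabilizer_iff.2 hσy
    exact MulAction.mem_stabilizer_iff.1 (Subgroup.zpow_mem _ hstab k)
  exact hle hx ⟨σ, Subgroup.mem_zpowers σ⟩

end Fermat.Agent.S55.K.GO3H535.H371
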