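import Fermat.Agent.S55.K.GO3H535.H371.Ord
import Fermat.Agent.S55.Bridge.PlacePrime

/-!
# S55 / layer K / GO3-CAPDIV (helper371), part 2: orders at unramified places

`F/ℚ` finite Galois, unramified outside `S`, `A` a place of `ℚ̄` over `q ∉ S`, `w = A ∩ 𝓞 F`.
Then `q` is a uniformiser at `w`, hence for `x ∈ F` with `w.valuation x = exp (-n)` the element
`x / q ^ n` is a unit of `A`: `HasOrd A q x n`.
-/

set_option autoImplicit false
set_option linter.unusedSectionVars false
set_option linter.style.haveILetI false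

noncomputable section

namespace Fermat.Agent.S55.K.GO3H535.H371

open Fermat.Agent.S55.PT Fermat.Agent.S55.Bridge Fermat.Agent.S55.K
open NumberField IsDedekindDomain
open scoped Pointwise

attribute [local instance] isAlgebraic_Qbar isGalois_Qbar

section

variable (F : IntermediateField ℚ (AlgebraicClosure ℚ)) [FiniteDimensional ℚ F] [IsGalois ℚ F]

attribute [local instance] H594.numberField_of_finite

/-- A prime number of ramification index `1` in `𝓞 F` is a uniformiser at every prime of `𝓞 F`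
containing it. -/
theorem intValuation_natCast_of_ramificationIdxIn {q : ℕ} (hq : q.Prime)
    (he : (Ideal.span {(q : ℤ)}).ramificationIdxIn (𝓞 F) = 1)
    (w : HeightOneSpectrum (𝓞 F)) (hw : (q : 𝓞 F) ∈ w.asIdeal) :
    w.intValuation (q : 𝓞 F) = WithZero.exp (-1 : ℤ) := by
  haveI hgal : IsGaloisGroup (F ≃ₐ[ℚ] F) ℤ (𝓞 F) :=
    IsGaloisGroup.of_isFractionRing (F ≃ₐ[ℚ] F) ℤ (𝓞 F) ℚ F
  haveI hmax : (Ideal.span {(q : ℤ)}).IsMaximal :=
    PrincipalIdealRing.isMaximal_of_irreducible (Nat.prime_iff_prime_int.mp hq).irreducible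
  haveI hprime : (Ideal.span {(q : ℤ)}).IsPrime := hmax.isPrime
  haveI := w.isPrime
  haveI := H594.liesOver_span_of_natCast_mem F hq w.asIdeal hw
  have hq0 : (q : 𝓞 F) ≠ 0 := by
    exact_mod_cast hq.ne_zero
  have hmap : (Ideal.span {(q : ℤ)}).map (algebraMap ℤ (𝓞 F)) = Ideal.span {(q : 𝓞 F)} := by
    rw [Ideal.map_span, Set.image_singleton]
    simp
  have hmap0 : (Ideal.span {(q : ℤ)}).map (algebraMap ℤ (𝓞 F)) ≠ ⊥ := by
    rw [hmap, Ne, Ideal.span_singleton_eq_bot]
    exact hq0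
  have h1 := Ideal.ramificationIdxIn_eq_ramificationIdx (Ideal.span {(q : ℤ)}) w.asIdeal
    (F ≃ₐ[ℚ] F)
  rw [he] at h1
  have h2 := Ideal.IsDedekindDomain.ramificationIdx_eq_normalizedFactors_count
    (Ideal.span {(q : ℤ)}) w.asIdeal hmap0
  rw [← h1, hmap] at h2
  have hsp : (Ideal.span {(q : 𝓞 F)} : Ideal (𝓞 F)) ≠ 0 := by
    rw [Ne, Ideal.zero_eq_bot, Ideal.span_singleton_eq_bot]
    exact hq0
  rw [w.intValuation_if_neg hq0, Ideal.count_associates_factors_eq hsp w.isPrime w.ne_bot, ← h2]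
  rfl

variable {S : Finset Nat.Primes}

/-- At a place `A` over `q ∉ S`, the prime `q` is a uniformiser of the level `F`. -/
theorem valuation_natCast_placePrime (hF : F.IsUnramifiedOutside S) {q : Nat.Primes}
    (hq : q ∉ S) (A : ValuationSubring (AlgebraicClosure ℚ)) (hA : A.LiesOverPrime (q : ℕ)) :
    (placePrime F A q.2 hA).valuation F ((q : ℕ) : F) = WithZero.exp (-1 : ℤ) := by
  have he := (H594.isUnramifiedOutside_iff_ramificationIdxIn F S).1 hF q hq
  have hw : ((q : ℕ) : 𝓞 F) ∈ (placePrime F A q.2 hA).asIdeal :=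
    H594.natCast_mem_primeBelowF F A hA
  have h := intValuation_natCast_of_ramificationIdxIn F q.2 he (placePrime F A q.2 hA) hw
  rw [← h, ← HeightOneSpectrum.valuation_of_algebraMap (K := F)]
  simp

/-- **Orders at unramified places.**  If `x ∈ F` has valuation `exp (-n)` at the prime of `F`
below `A`, then `x` has order `n` at `A`. -/
theorem hasOrd_of_valuation_eq (hF : F.IsUnramifiedOutside S) {q : Nat.Primes}
    (hq : q ∉ S) (A : ValuationSubring (AlgebraicClosure ℚ)) (hA : A.LiesOverPrime (q : ℕ))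
    (x : F) (n : ℤ) (hx : (placePrime F A q.2 hA).valuation F x = WithZero.exp (-n)) :
    HasOrd A (q : ℕ) (x : AlgebraicClosure ℚ) n := by
  have hq0 : ((q : ℕ) : F) ≠ 0 := by
    exact_mod_cast q.2.ne_zero
  have hx0 : x ≠ 0 := by
    rintro rfl
    rw [map_zero] at hx
    exact WithZero.exp_ne_zero.symm hx
  have hy0 : x / ((q : ℕ) : F) ^ n ≠ 0 := div_ne_zero hx0 (zpow_ne_zero n hq0)
  have hval : (placePrime F A q.2 hA).valuation F (x / ((q : ℕ) : F) ^ n) = 1 := by
    rw [map_div₀, map_zpow₀, valuation_natCast_placePrime F hF hq A hA, hx, ← WithZero.exp_zsmul,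
      smul_eq_mul, mul_neg, mul_one]
    exact div_self WithZero.exp_ne_zero
  have h := (unit_iff_valuation_eq_one F A q.2 hA (Units.mk0 _ hy0)).2 hval
  rw [hasOrd_iff_unitAt q.2.ne_zero]
  have hcoe : (((Units.mk0 _ hy0 : Fˣ) : F) : AlgebraicClosure ℚ) =
      (x : AlgebraicClosure ℚ) / ((q : ℕ) : AlgebraicClosure ℚ) ^ n := by
    show algebraMap F (AlgebraicClosure ℚ) (x / ((q : ℕ) : F) ^ n) = _
    rw [map_div₀, map_zpow₀, map_natCast]
    rfl
  have hne : (x : AlgebraicClosure ℚ) / ((q : ℕ) : AlgebraicClosure ℚ) ^ n ≠ 0 := by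
    rw [← hcoe]
    simpa using hy0
  rw [unitAt_iff_mem hne, ← hcoe]
  refine ⟨h.1, ?_⟩
  have := h.2
  simpa using this

/-- Every nonzero element of a Galois level has an order at every place outside `S`. -/
theorem exists_hasOrd_of_mem (hF : F.IsUnramifiedOutside S) {q : Nat.Primes}
    (hq : q ∉ S) (A : ValuationSubring (AlgebraicClosure ℚ)) (hA : A.LiesOverPrime (q : ℕ))
    (x : F) (hx : x ≠ 0) : ∃ n : ℤ, HasOrd A (q : ℕ) (x : AlgebraicClosure ℚ) n := by
  have hv : (placePrime F A q.2 hA).valuation F x ≠ 0 := (Valuation.ne_zero_iff _).2 hx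
  refine ⟨-WithZero.log ((placePrime F A q.2 hA).valuation F x),
    hasOrd_of_valuation_eq F hF hq A hA x _ ?_⟩
  rw [neg_neg, WithZero.exp_log hv]

end

end Fermat.Agent.S55.K.GO3H535.H371
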